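/-
Program A, leaf (A-FIN): finiteness of the character set.

* `Fermat.Agent.S42.H4.finite_monoidHom_of_fg` : a finitely generated group has only finitely
  many homomorphisms into a finite group.
* `Fermat.Agent.S42.H4.sl2z_fg`, `fg_of_finiteIndex_sl2z`, `gamma0_fg` : `SL(2, ℤ)`, its
  subgroups of finite index and in particular `Γ₀(N)` are finitely generated.
* `finite_addHom`, `finite_rootChar`, and the generic versions for a finite index subgroup.
-/
import Mathlib

set_option autoImplicit false

namespace Fermat.Agent.S42.H4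

open Matrix Matrix.SpecialLinearGroup

/-- A finitely generated group has finitely many homomorphisms into a finite group. -/
theorem finite_monoidHom_of_fg (G A : Type*) [Group G] [Group A] [Group.FG G] [Finite A] :
    Finite (G →* A) := by
  obtain ⟨S, hS⟩ := Group.fg_def.mp (inferInstance : Group.FG G)
  have hinj : Function.Injective (fun (f : G →* A) (s : S) => f (s : G)) := by
    intro f g hfg
    apply MonoidHom.eq_of_eqOn_dense hS
    intro x hx
    exact congrFun hfg ⟨x, hx⟩
  exact Finite.of_injective _ hinj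

/-- A finitely generated group has finitely many additive characters with values in a finite
additive group. -/
theorem finite_addMonoidHom_of_fg (G A : Type*) [Group G] [AddGroup A] [Group.FG G] [Finite A] :
    Finite (Additive G →+ A) := by
  have : Finite (G →* Multiplicative A) := finite_monoidHom_of_fg G (Multiplicative A)
  exact Finite.of_injective _ (AddMonoidHom.toMultiplicativeRight (α := G) (β := A)).injective

/-- `SL(2, ℤ)` is finitely generated (by `S` and `T`). -/
instance sl2z_fg : Group.FG (SpecialLinearGroup (Fin 2) ℤ) := by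
  rw [Group.fg_iff]
  refine ⟨{ModularGroup.S, ModularGroup.T}, SpecialLinearGroup.SL2Z_generators, ?_⟩
  exact Set.toFinite _

/-- Every subgroup of finite index of `SL(2, ℤ)` is finitely generated. -/
theorem fg_of_finiteIndex_sl2z (Γ : Subgroup (SpecialLinearGroup (Fin 2) ℤ)) [Γ.FiniteIndex] :
    Group.FG Γ :=
  inferInstance

/-- `Γ₀(N)` is finitely generated. -/
instance gamma0_fg (N : ℕ) [NeZero N] : Group.FG ↥(CongruenceSubgroup.Gamma0 N) :=
  inferInstance

/-- Finitely many homomorphisms `Γ → A`, for `Γ ≤ SL(2, ℤ)` of finite index and `A` finite. -/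
theorem finite_monoidHom_of_finiteIndex (Γ : Subgroup (SpecialLinearGroup (Fin 2) ℤ))
    [Γ.FiniteIndex] (A : Type*) [Group A] [Finite A] : Finite (↥Γ →* A) :=
  finite_monoidHom_of_fg _ _

/-- Finitely many additive characters `Γ → A`, for `Γ ≤ SL(2, ℤ)` of finite index and `A`
finite. -/
theorem finite_addMonoidHom_of_finiteIndex (Γ : Subgroup (SpecialLinearGroup (Fin 2) ℤ))
    [Γ.FiniteIndex] (A : Type*) [AddGroup A] [Finite A] : Finite (Additive ↥Γ →+ A) :=
  finite_addMonoidHom_of_fg _ _

/-- (F2) The group `Hom(Γ₀(N), ℤ/p)` is finite. -/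
instance finite_addHom (N : ℕ) [NeZero N] (p : ℕ) [NeZero p] :
    Finite (Additive ↥(CongruenceSubgroup.Gamma0 N) →+ ZMod p) :=
  finite_addMonoidHom_of_fg _ _

/-- Generic version of (F3): finitely many characters of a finitely generated group with values
in the `p`-th roots of unity of a commutative domain. -/
theorem finite_rootChar_of_fg (G : Type*) [Group G] [Group.FG G] (R : Type*) [CommRing R]
    [IsDomain R] (p : ℕ) [NeZero p] : Finite {χ : G →* Rˣ // ∀ γ, χ γ ^ p = 1} := by
  have : Finite (G →* ↥(rootsOfUnity p R)) := finite_monoidHom_of_fg _ _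
  let F : {χ : G →* Rˣ // ∀ γ, χ γ ^ p = 1} → (G →* ↥(rootsOfUnity p R)) := fun χ =>
    { toFun := fun γ => ⟨χ.1 γ, (mem_rootsOfUnity p _).mpr (χ.2 γ)⟩
      map_one' := by ext; simp
      map_mul' := fun a b => by ext; simp }
  refine Finite.of_injective F ?_
  intro χ ψ h
  apply Subtype.ext
  ext γ
  have := congrArg (fun f : G →* ↥(rootsOfUnity p R) => ((f γ : Rˣ) : R)) h
  simpa [F] using this

/-- (F3) Finitely many characters of `Γ₀(N)` with values in the complex `p`-th roots of unity. -/
theorem finite_rootChar (N : ℕ) [NeZero N] (p : ℕ) [NeZero p] :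
    Finite {χ : ↥(CongruenceSubgroup.Gamma0 N) →* ℂˣ // ∀ γ, χ γ ^ p = 1} :=
  finite_rootChar_of_fg _ ℂ p

/-- Same as `finite_rootChar`, for every subgroup of finite index of `SL(2, ℤ)`. -/
theorem finite_rootChar_of_finiteIndex (Γ : Subgroup (SpecialLinearGroup (Fin 2) ℤ))
    [Γ.FiniteIndex] (p : ℕ) [NeZero p] : Finite {χ : ↥Γ →* ℂˣ // ∀ γ, χ γ ^ p = 1} :=
  finite_rootChar_of_fg _ ℂ p

/-- The characters of a finitely generated group with values in `ℂ` (as functions) whose `p`-th
power is trivial: finiteness in the "function" shape `χ : G → ℂ`, multiplicative with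
`χ γ ^ p = 1`. -/
theorem finite_funChar_of_fg (G : Type*) [Group G] [Group.FG G] (p : ℕ) [NeZero p] :
    Finite {χ : G → ℂ // (∀ a b, χ (a * b) = χ a * χ b) ∧ ∀ γ, χ γ ^ p = 1} := by
  have := finite_rootChar_of_fg G ℂ p
  let F : {χ : G → ℂ // (∀ a b, χ (a * b) = χ a * χ b) ∧ ∀ γ, χ γ ^ p = 1} →
      {χ : G →* ℂˣ // ∀ γ, χ γ ^ p = 1} := fun χ =>
    have hne : ∀ γ, χ.1 γ ≠ 0 := fun γ h0 => by
      have := χ.2.2 γ
      rw [h0, zero_pow (NeZero.ne p)] at this
      exact zero_ne_one this
    have h1 : χ.1 1 = 1 := by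
      have h := χ.2.1 1 1
      rw [mul_one] at h
      have h' : χ.1 1 * 1 = χ.1 1 * χ.1 1 := by rw [mul_one]; exact h
      exact (mul_left_cancel₀ (hne 1) h').symm
    ⟨{ toFun := fun γ => Units.mk0 (χ.1 γ) (hne γ)
       map_one' := by ext; simpa using h1
       map_mul' := fun a b => by ext; simpa using χ.2.1 a b },
     fun γ => by ext; simpa using χ.2.2 γ⟩
  refine Finite.of_injective F ?_
  intro χ ψ h
  apply Subtype.ext
  funext γ
  have := congrArg (fun f : {χ : G →* ℂˣ // ∀ γ, χ γ ^ p = 1} => ((f.1 γ : ℂˣ) : ℂ)) h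
  simpa [F] using this

end Fermat.Agent.S42.H4
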